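import Fermat.Agent.Ribet.H884.SlopeS1
import Fermat.Agent.S59.H659.Cyclo

/-!
# RIBET row 38, WALL-p: the inertia line lies in the split part, for free (helper623)

Under the hypotheses of (S4) the class `t` satisfies `σ t = χ(σ) t` for `σ` in the inertia group
`I` at `A`.  Since `I` moves `μ_p` (`S59.H659.exists_inertia_cycExp_ne_one`, `p` odd), there is
`σ ∈ I` with `χ(σ) - 1` invertible modulo `p`, so `t = d • (σ t - t)` and (S1) gives
`t ∈ 𝒮 = splitPart`.  Hence: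

* `mem_of_s1For`          : `S1For p M' A 𝒮 → p • t = 0 → (σ t = χ(σ) t on I) → t ∈ 𝒮`;
* `mem_splitPart_of_cyclo`: the same for `𝒮 = H884.splitPart`, unconditional (`H884.s1`);
* `s4For_of_wild`         : `S4For` follows from `S4For` with the extra hypothesis `t ∈ 𝒮`
  (so no separate tame statement for `t` is needed in the (S4) glue).
-/

set_option autoImplicit false

namespace Fermat.Agent.Ribet.H623

open Fermat.Agent.Ribet.Spec Fermat.Agent.Ribet.H944.Wall Fermat.Agent.Ribet.H884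
open ModularCurve

variable (p M' : ℕ) [NeZero M'] [NeZero p] [NeZero (p * M')]

/-- A class on which inertia acts through the cyclotomic character lies in every subgroup `𝒮`
satisfying (S1). -/
theorem mem_of_s1For (hp : p.Prime) (hp2 : p ≠ 2) (A : ValuationSubring (AlgebraicClosure ℚ))
    (hA : A.LiesOverPrime p) (𝒮 : AddSubgroup (JZero (p * M'))) (h1 : S1For p M' A 𝒮)
    (t : JZero (p * M')) (hpt : p • t = 0)
    (hχ : ∀ σ ∈ A.inertiaSubgroupIn ℚ, ∀ c : ℕ, CycloAt p σ c → σ • t = c • t) : t ∈ 𝒮 := by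
  obtain ⟨σ, hσ, hne⟩ := Fermat.Agent.S59.H659.exists_inertia_cycExp_ne_one p hp hp2 A hA
  obtain ⟨c, hc⟩ := Fermat.Agent.S59.H659.exists_isCycExp p hp.ne_zero σ
  have hc' : CycloAt p σ c := hc
  have hnc := hne c hc
  have hmem : σ • t - t ∈ 𝒮 := h1 t hpt σ hσ
  rw [hχ σ hσ c hc'] at hmem
  -- `(c - 1) • t ∈ 𝒮` with `c - 1` prime to `p`
  have hz : ((c : ℤ) - 1) • t ∈ 𝒮 := by
    have e : ((c : ℤ) - 1) • t = c • t - t := by
      rw [sub_smul, one_smul, natCast_zsmul]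
    rw [e]
    exact hmem
  have hpp : Prime (p : ℤ) := Nat.prime_iff_prime_int.mp hp
  have hndvd : ¬ (p : ℤ) ∣ (c : ℤ) - 1 := by
    intro hd
    apply hnc
    have h2 : (c : ℤ) ≡ 1 [ZMOD (p : ℤ)] := by
      rw [Int.modEq_iff_dvd]
      have : (1 : ℤ) - c = -((c : ℤ) - 1) := by ring
      rw [this]
      exact (dvd_neg).mpr hd
    exact_mod_cast (Int.natCast_modEq_iff.mp (by exact_mod_cast h2))
  have hcop : IsCoprime ((c : ℤ) - 1) (p : ℤ) :=
    (IsCoprime.symm ((Prime.coprime_iff_not_dvd hpp).mpr hndvd))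
  obtain ⟨u, v, huv⟩ := hcop
  have ht : t = u • (((c : ℤ) - 1) • t) + v • ((p : ℤ) • t) := by
    rw [smul_smul, smul_smul, ← add_zsmul, huv, one_zsmul]
  rw [ht]
  refine 𝒮.add_mem (𝒮.zsmul_mem hz u) ?_
  have : ((p : ℤ) • t) = 0 := by rw [natCast_zsmul]; exact hpt
  rw [this, smul_zero]
  exact 𝒮.zero_mem

/-- The inertia line lies in `splitPart` (unconditional). -/
theorem mem_splitPart_of_cyclo (hp : p.Prime) (hp2 : p ≠ 2) (hpM : ¬ p ∣ M')
    (A : ValuationSubring (AlgebraicClosure ℚ)) (hA : A.LiesOverPrime p)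
    (t : JZero (p * M')) (hpt : p • t = 0)
    (hχ : ∀ σ ∈ A.inertiaSubgroupIn ℚ, ∀ c : ℕ, CycloAt p σ c → σ • t = c • t) :
    t ∈ splitPart p M' A :=
  mem_of_s1For p M' hp hp2 A hA _ (s1 p M' hp hpM A hA) t hpt hχ

/-- `S4For` with the extra hypothesis `t ∈ 𝒮` ("S4-WILD"). -/
def S4WildFor (A : ValuationSubring (AlgebraicClosure ℚ))
    (𝓕 𝒮 : AddSubgroup (JZero (p * M'))) : Prop :=
  ∀ (S : Finset ℕ) (a : ℕ → ℤ), NonEisAway p a → ∀ x t : JZero (p * M'),
    IsNewTors p M' x → EigenAt (p * M') S a x →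
    IsNewTors p M' t → EigenAt (p * M') S a t → t ∈ 𝒮 →
    (∀ σ ∈ A.inertiaSubgroupIn ℚ, ∀ c : ℕ, CycloAt p σ c → σ • t = c • t) →
    (∀ σ ∈ A.inertiaSubgroupIn ℚ, ∃ n : ℕ, σ • x = x + n • t) →
    (∀ σ : GQ, PeuFixes A p σ → σ • x = x) → x ∈ 𝓕

/-- **(S4) from S4-WILD and (S1)**: no tame statement about `t` is needed. -/
theorem s4For_of_wild (hp : p.Prime) (hp2 : p ≠ 2) (A : ValuationSubring (AlgebraicClosure ℚ))
    (hA : A.LiesOverPrime p) (𝓕 𝒮 : AddSubgroup (JZero (p * M'))) (h1 : S1For p M' A 𝒮)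
    (hW : S4WildFor p M' A 𝓕 𝒮) : S4For p M' A 𝓕 := by
  intro S a hNE x t hx hex ht het hχ hsh hpeu
  exact hW S a hNE x t hx hex ht het
    (mem_of_s1For p M' hp hp2 A hA 𝒮 h1 t ht.1 hχ) hχ hsh hpeu

end Fermat.Agent.Ribet.H623
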